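import Fermat.Agent.S48.Defs
import Fermat.Agent.NEB.H34_TwSum

/-!
# S48, leaf A (`Stmt_Int`): interfaces of the sub-leaves (helper55)

Route (no Hecke operators on `Γ₁(N)`, no Galois descent for (i), (ii)):

* `Stmt_Decomp` : every `f ∈ S₁(Γ₁(N))` is a sum of forms with nebentypus.
* `Stmt_Eis`    : for odd `ψ` mod `N` the weight 3 Eisenstein series `E_ψ` with `q`-expansion
                  `∑ (∑_{c e = n} ψ(c) e²) qⁿ` (leading coefficient `1`, coefficients in `ℤ[ψ]`).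
* `Stmt_Prod`   : `f_χ · E_{χ⁻¹} ∈ S₄(Γ₀(N))`, `f_χ ^ m ∈ S_m(Γ₀(N))` with the expected `q`-expansions.
* `Stmt_CoeffFG`: the coefficients of any `F ∈ S₄(Γ₀(N))` lie in a finitely generated subgroup of
                  `ℂ` (`a_n(F) = a_1(T_n F)` and the Hecke algebra is finite over `ℤ`: S22).
* `Stmt_NebGS`  : conjugates of forms with nebentypus (S23 Galois stability for `Γ₀(N)`, all
                  weights, applied to `f E` and `f ^ m`, then division).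

(i), (ii): the coefficients of `f` lie in a finitely generated subgroup `Λ` of `ℂ` stable under the
values of the characters; the relations `a_p a_n = a_{pn} + ε(p) a_{n/p}` give by induction that
all monomials in the `a_p` lie in `Λ`, so `ℤ[a_p : p ∤ N]` is a finitely generated `ℤ`-module.
(iii): `f^σ = ∑_χ (f_χ)^σ`.
-/

set_option autoImplicit false

open CongruenceSubgroup UpperHalfPlane ModularForm
open scoped MatrixGroups ModularForm Manifold

namespace Fermat.Agent.S48.Int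

/-- `f` transforms under `Γ₀(N)` with weight `k` and character `χ`:
`f ∣[k] γ = χ(d_γ) f`. -/
def HasNeb (N : ℕ) (χ : DirichletCharacter ℂ N) (k : ℤ) (f : ℍ → ℂ) : Prop :=
  ∀ γ : SL(2, ℤ), γ ∈ Gamma0 N → f ∣[k] γ = χ (((γ 1 1 : ℤ) : ZMod N)) • f

/-- The coefficient series `∑ (∑_{c e = n} ψ(c) e²) qⁿ` of the weight 3 Eisenstein series. -/
noncomputable def eisSeries (N : ℕ) (ψ : DirichletCharacter ℂ N) : PowerSeries ℂ :=
  PowerSeries.mk fun n => Fermat.Agent.NEB.H34.sigmaChi (fun c : ℤ => ψ ((c : ZMod N))) 2 n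

/-- **A-Eis**: the weight 3 Eisenstein series of an odd character. -/
def Stmt_Eis : Prop :=
  ∀ (N : ℕ) [NeZero N], 3 ≤ N → ∀ ψ : DirichletCharacter ℂ N, ψ (-1) = -1 →
    ∃ E : ℍ → ℂ, MDifferentiable 𝓘(ℂ) 𝓘(ℂ) E ∧
      (∀ A : SL(2, ℤ), IsBoundedAtImInfty (E ∣[(3 : ℤ)] A)) ∧
      HasNeb N ψ 3 E ∧ qExpansion 1 E = eisSeries N ψ

/-- **A-Decomp**: decomposition of `S₁(Γ₁(N))` into nebentypus components. -/
def Stmt_Decomp : Prop :=
  ∀ (N : ℕ) [NeZero N] (f : CuspForm (Gamma1 N) 1),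
    ∃ F : DirichletCharacter ℂ N → CuspForm (Gamma1 N) 1,
      (∀ χ, HasNeb N χ 1 (F χ)) ∧ ∀ z : ℍ, f z = ∑ χ, F χ z

/-- **A-Prod**: the product of a cusp form on `Γ₁(N)` of weight `k₁` with character `χ` and a
holomorphic function, bounded at all cusps, of weight `k₂` with character `χ⁻¹`, is a cusp form on
`Γ₀(N)`; the `q`-expansions multiply. -/
def Stmt_Prod : Prop :=
  ∀ (N : ℕ) [NeZero N] (χ : DirichletCharacter ℂ N) (k₁ k₂ : ℤ) (f : CuspForm (Gamma1 N) k₁)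
    (E : ℍ → ℂ), HasNeb N χ k₁ f → MDifferentiable 𝓘(ℂ) 𝓘(ℂ) E →
      (∀ A : SL(2, ℤ), IsBoundedAtImInfty (E ∣[k₂] A)) → HasNeb N χ⁻¹ k₂ E →
      ∃ G : CuspForm (Gamma0 N) (k₁ + k₂), (∀ z, G z = f z * E z) ∧
        qExpansion 1 G = qExpansion 1 f * qExpansion 1 E

/-- **A-Pow**: the `m`-th power of a cusp form with character `χ`, `χ ^ m = 1`, `0 < m`, is a cusp
form on `Γ₀(N)`. -/
def Stmt_Pow : Prop :=
  ∀ (N : ℕ) [NeZero N] (χ : DirichletCharacter ℂ N) (k : ℤ) (f : CuspForm (Gamma1 N) k)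
    (m : ℕ), 0 < m → χ ^ m = 1 → HasNeb N χ k f →
      ∃ G : CuspForm (Gamma0 N) (k * m), (∀ z, G z = f z ^ m) ∧
        qExpansion 1 G = qExpansion 1 f ^ m

/-- **A-CoeffFG**: the `q`-coefficients of a cusp form of weight 4 on `Γ₀(N)` lie in a finitely
generated subgroup of `ℂ`. -/
def Stmt_CoeffFG : Prop :=
  ∀ (N : ℕ) [NeZero N] (F : CuspForm (Gamma0 N) 4),
    ∃ Λ : Submodule ℤ ℂ, Λ.FG ∧ ∀ n : ℕ, (qExpansion 1 F).coeff n ∈ Λ

/-- **A-NebGS**: Galois stability for cusp forms of weight one with nebentypus. -/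
def Stmt_NebGS : Prop :=
  ∀ (N : ℕ) [NeZero N], 3 ≤ N → ∀ (χ : DirichletCharacter ℂ N) (f : CuspForm (Gamma1 N) 1),
    HasNeb N χ 1 f → ∀ σ : ℂ →+* ℂ, ∃ f' : CuspForm (Gamma1 N) 1,
      qExpansion 1 f' = (qExpansion 1 f).map σ

/-- **A-I12**: claims (i) and (ii) of `Stmt_Int`. -/
def Stmt_Int12 : Prop :=
  ∀ (N : ℕ) [NeZero N] (ε : DirichletCharacter ℂ N) (f : CuspForm (Gamma1 N) 1),
    IsDSForm N ε f →
      (∀ p : ℕ, p.Prime → ¬ p ∣ N → IsIntegral ℤ (ModularFormClass.qCoeff f p)) ∧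
      FiniteDimensional ℚ
        (IntermediateField.adjoin ℚ
          {x : ℂ | ∃ p : ℕ, p.Prime ∧ ¬ p ∣ N ∧ x = ModularFormClass.qCoeff f p})

/-- **A-I3**: claim (iii) of `Stmt_Int`, for every cusp form. -/
def Stmt_Int3 : Prop :=
  ∀ (N : ℕ) [NeZero N] (f : CuspForm (Gamma1 N) 1) (σ : ℂ →+* ℂ),
    ∃ f' : CuspForm (Gamma1 N) 1,
      ∀ n : ℕ, ModularFormClass.qCoeff f' n = σ (ModularFormClass.qCoeff f n)

/-- Assembly of leaf A. -/
theorem stmt_Int_of (h12 : Stmt_Int12) (h3 : Stmt_Int3) : Stmt_Int := by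
  intro N _ ε f hf
  obtain ⟨h1, h2⟩ := h12 N ε f hf
  exact ⟨h1, h2, fun σ => h3 N f σ⟩

end Fermat.Agent.S48.Int
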