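import Fermat.Agent.S48.Int.Defs
import Fermat.Agent.S23.H22_Nice

/-!
# S48, leaf A, sub-leaves A-Prod and A-Pow (helper22)

* `stmt_Prod : Stmt_Prod`: the product of a cusp form on `Γ₁(N)` with character `χ` and a
  holomorphic function bounded at all cusps with character `χ⁻¹` is a cusp form on `Γ₀(N)`;
* `stmt_Pow : Stmt_Pow`: the `m`-th power of a cusp form with character `χ`, `χ ^ m = 1`, is a
  cusp form on `Γ₀(N)`.
-/

set_option autoImplicit false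

open CongruenceSubgroup UpperHalfPlane ModularForm
open scoped MatrixGroups ModularForm Manifold

noncomputable section

namespace Fermat.Agent.S48.Int.H22

open Fermat.Agent.S23.H22

variable {N : ℕ}

/-- The lower right entry of an element of `Γ₀(N)` is a unit modulo `N`. -/
theorem isUnit_lowerRight {γ : SL(2, ℤ)} (hγ : γ ∈ Gamma0 N) :
    IsUnit (((γ 1 1 : ℤ) : ZMod N)) := by
  have hc : ((γ 1 0 : ℤ) : ZMod N) = 0 := Gamma0_mem.mp hγ
  have hdet : γ 0 0 * γ 1 1 - γ 0 1 * γ 1 0 = 1 := by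
    have := γ.det_coe
    rwa [Matrix.det_fin_two] at this
  have h1 : ((γ 0 0 : ℤ) : ZMod N) * ((γ 1 1 : ℤ) : ZMod N) = 1 := by
    have := congrArg (Int.cast : ℤ → ZMod N) hdet
    push_cast at this
    rw [hc, mul_zero, sub_zero] at this
    exact this
  exact IsUnit.of_mul_eq_one _ (by rw [mul_comm]; exact h1)

theorem T_mem_Gamma1 (N : ℕ) : ModularGroup.T ∈ Gamma1 N := by
  rw [Gamma1_mem]
  simp [ModularGroup.T]

theorem one_mem_strictPeriods_Gamma1 (N : ℕ) :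
    (1 : ℝ) ∈ ((Gamma1 N : Subgroup (GL (Fin 2) ℝ))).strictPeriods := by
  rw [Subgroup.strictPeriods_eq_zmultiples_one_of_T_mem (T_mem_Gamma1 N)]
  exact AddSubgroup.mem_zmultiples 1

/-- A function with nebentypus is invariant under `Γ₁(N)`. -/
theorem slash_eq_of_hasNeb {χ : DirichletCharacter ℂ N} {k : ℤ} {F : ℍ → ℂ}
    (hF : HasNeb N χ k F) {γ : SL(2, ℤ)} (hγ : γ ∈ Gamma1 N) : F ∣[k] γ = F := by
  rw [hF γ (Gamma1_in_Gamma0 N hγ)]
  have hd : ((γ 1 1 : ℤ) : ZMod N) = 1 := ((Gamma1_mem N γ).mp hγ).2.1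
  rw [hd, map_one, one_smul]

/-- A cusp form vanishes at all cusps, in terms of `SL(2, ℤ)`-translates. -/
theorem isZeroAtImInfty_slash {Γ : Subgroup SL(2, ℤ)} [Γ.FiniteIndex] {k : ℤ}
    (f : CuspForm (Γ : Subgroup (GL (Fin 2) ℝ)) k) (A : SL(2, ℤ)) :
    IsZeroAtImInfty ((f : ℍ → ℂ) ∣[k] A) := by
  have hc : IsCusp (Matrix.SpecialLinearGroup.mapGL ℝ A • OnePoint.infty) 𝒮ℒ :=
    isCusp_SL2Z_iff'.mpr ⟨A, rfl⟩
  have hc' : IsCusp (Matrix.SpecialLinearGroup.mapGL ℝ A • OnePoint.infty)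
      (Γ : Subgroup (GL (Fin 2) ℝ)) := by
    rw [Subgroup.IsArithmetic.isCusp_iff_isCusp_SL2Z]
    exact hc
  have h := f.zero_at_cusps' hc'
  rw [OnePoint.isZeroAt_iff_forall_SL2Z hc] at h
  exact h A rfl

/-- Build a cusp form on `Γ₀(N)`. -/
def mkCusp0 (N : ℕ) [NeZero N] (k : ℤ) (g : ℍ → ℂ) (hg : MDiff g)
    (hinv : ∀ γ : SL(2, ℤ), γ ∈ Gamma0 N → g ∣[k] γ = g)
    (hzero : ∀ A : SL(2, ℤ), IsZeroAtImInfty (g ∣[k] A)) : CuspForm (Gamma0 N) k where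
  toFun := g
  slash_action_eq' := by
    intro A hA
    obtain ⟨γ, hγ, rfl⟩ := hA
    exact hinv γ hγ
  holo' := hg
  zero_at_cusps' := by
    intro c hc
    rw [Subgroup.IsArithmetic.isCusp_iff_isCusp_SL2Z] at hc
    rw [OnePoint.isZeroAt_iff_forall_SL2Z hc]
    intro γ _
    exact hzero γ

@[simp] theorem mkCusp0_apply (N : ℕ) [NeZero N] (k : ℤ) (g : ℍ → ℂ) (hg : MDiff g)
    (hinv : ∀ γ : SL(2, ℤ), γ ∈ Gamma0 N → g ∣[k] γ = g)
    (hzero : ∀ A : SL(2, ℤ), IsZeroAtImInfty (g ∣[k] A)) (z : ℍ) :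
    mkCusp0 N k g hg hinv hzero z = g z := rfl

/-- Build a modular form on `Γ₁(N)`. -/
def mkMod1 (N : ℕ) [NeZero N] (k : ℤ) (g : ℍ → ℂ) (hg : MDiff g)
    (hinv : ∀ γ : SL(2, ℤ), γ ∈ Gamma1 N → g ∣[k] γ = g)
    (hbdd : ∀ A : SL(2, ℤ), IsBoundedAtImInfty (g ∣[k] A)) : ModularForm (Gamma1 N) k where
  toFun := g
  slash_action_eq' := by
    intro A hA
    obtain ⟨γ, hγ, rfl⟩ := hA
    exact hinv γ hγ
  holo' := hg
  bdd_at_cusps' := by
    intro c hc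
    rw [Subgroup.IsArithmetic.isCusp_iff_isCusp_SL2Z] at hc
    rw [OnePoint.isBoundedAt_iff_forall_SL2Z hc]
    intro γ _
    exact hbdd γ

/-- A holomorphic function with nebentypus, bounded at all cusps, is nice. -/
theorem nice_of_hasNeb [NeZero N] {χ : DirichletCharacter ℂ N} {k : ℤ} {E : ℍ → ℂ}
    (hE : HasNeb N χ k E) (hol : MDiff E)
    (hbdd : ∀ A : SL(2, ℤ), IsBoundedAtImInfty (E ∣[k] A)) : Nice 1 E :=
  nice_of_modularForm (mkMod1 N k E hol (fun _ hγ => slash_eq_of_hasNeb hE hγ) hbdd) one_pos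
    (one_mem_strictPeriods_Gamma1 N)

theorem nice_cusp1 {k : ℤ} (f : CuspForm (Gamma1 N) k) : Nice 1 (f : ℍ → ℂ) :=
  nice_of_modularForm f one_pos (one_mem_strictPeriods_Gamma1 N)

theorem isBoundedAtImInfty_pow {F : ℍ → ℂ} (hF : IsBoundedAtImInfty F) (n : ℕ) :
    IsBoundedAtImInfty (F ^ n) := by
  induction n with
  | zero =>
    rw [pow_zero]
    exact Filter.const_boundedAtFilter _ (1 : ℂ)
  | succ n ih =>
    rw [pow_succ]
    exact ih.mul hF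

theorem pow_slash_SL (f : ℍ → ℂ) (k : ℤ) (n : ℕ) (A : SL(2, ℤ)) :
    (f ^ n) ∣[k * n] A = (f ∣[k] A) ^ n := by
  funext z
  simp only [SL_slash_apply, Pi.pow_apply]
  rw [mul_pow, ← zpow_natCast (denom _ _ ^ (-k)) n, ← zpow_mul]
  congr 2
  ring

/-- **A-Prod.** -/
theorem stmt_Prod : Stmt_Prod := by
  intro N _ χ k₁ k₂ f E hf hol hbdd hE
  have hinv : ∀ γ : SL(2, ℤ), γ ∈ Gamma0 N →
      ((f : ℍ → ℂ) * E) ∣[k₁ + k₂] γ = (f : ℍ → ℂ) * E := by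
    intro γ hγ
    rw [mul_slash_SL2, hf γ hγ, hE γ hγ]
    have hu := isUnit_lowerRight hγ
    have h1 : χ (((γ 1 1 : ℤ) : ZMod N)) * χ⁻¹ (((γ 1 1 : ℤ) : ZMod N)) = 1 := by
      rw [← MulChar.mul_apply, mul_inv_cancel, MulChar.one_apply hu]
    funext z
    simp only [Pi.mul_apply, Pi.smul_apply, smul_eq_mul]
    calc χ (((γ 1 1 : ℤ) : ZMod N)) * f z * (χ⁻¹ (((γ 1 1 : ℤ) : ZMod N)) * E z)
        = (χ (((γ 1 1 : ℤ) : ZMod N)) * χ⁻¹ (((γ 1 1 : ℤ) : ZMod N))) * (f z * E z) := by ring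
      _ = f z * E z := by rw [h1, one_mul]
  have hzero : ∀ A : SL(2, ℤ), IsZeroAtImInfty (((f : ℍ → ℂ) * E) ∣[k₁ + k₂] A) := by
    intro A
    rw [mul_slash_SL2]
    exact (isZeroAtImInfty_slash f A).mul_boundedAtFilter (hbdd A)
  refine ⟨mkCusp0 N (k₁ + k₂) ((f : ℍ → ℂ) * E) (f.holo'.mul hol) hinv hzero,
    fun z => rfl, ?_⟩
  have h2 : ((mkCusp0 N (k₁ + k₂) ((f : ℍ → ℂ) * E) (f.holo'.mul hol) hinv hzero :
      CuspForm (Gamma0 N) (k₁ + k₂)) : ℍ → ℂ) = (f : ℍ → ℂ) * E := rfl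
  rw [h2]
  exact Nice.qExpansion_mul one_pos (nice_cusp1 f) (nice_of_hasNeb hE hol hbdd)

/-- **A-Pow.** -/
theorem stmt_Pow : Stmt_Pow := by
  intro N _ χ k f m hm hχ hf
  have hinv : ∀ γ : SL(2, ℤ), γ ∈ Gamma0 N →
      ((f : ℍ → ℂ) ^ m) ∣[k * m] γ = (f : ℍ → ℂ) ^ m := by
    intro γ hγ
    rw [pow_slash_SL, hf γ hγ]
    have hu := isUnit_lowerRight hγ
    have h1 : χ (((γ 1 1 : ℤ) : ZMod N)) ^ m = 1 := by
      rw [← MulChar.pow_apply' χ hm.ne', hχ, MulChar.one_apply hu]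
    funext z
    simp only [Pi.pow_apply, Pi.smul_apply, smul_eq_mul]
    rw [mul_pow, h1, one_mul]
  have hzero : ∀ A : SL(2, ℤ), IsZeroAtImInfty (((f : ℍ → ℂ) ^ m) ∣[k * m] A) := by
    intro A
    rw [pow_slash_SL]
    obtain ⟨n, rfl⟩ : ∃ n, m = n + 1 := ⟨m - 1, by omega⟩
    rw [pow_succ]
    have hb : IsBoundedAtImInfty (((f : ℍ → ℂ) ∣[k] A) ^ n) :=
      isBoundedAtImInfty_pow (isZeroAtImInfty_slash f A).boundedAtFilter n
    exact hb.mul_zeroAtFilter (isZeroAtImInfty_slash f A)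
  refine ⟨mkCusp0 N (k * m) ((f : ℍ → ℂ) ^ m) (by
      have := f.holo'
      exact MDifferentiable.pow this m) hinv hzero, fun z => rfl, ?_⟩
  exact Nice.qExpansion_pow one_pos (nice_cusp1 f) m

end Fermat.Agent.S48.Int.H22
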