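import Fermat.Agent.S48.Int.Defs

/-!
# S48, leaf A, sub-leaf A-Decomp (helper31)

`stmt_Decomp : Stmt_Decomp`: every cusp form `f` of weight one on `Γ₁(N)` is the sum of its
nebentypus components
`F χ = φ(N)⁻¹ ∑_{d ∈ (ℤ/N)ˣ} χ(d)⁻¹ • f ∣ γ_d`, `γ_d ∈ Γ₀(N)` with lower right entry `≡ d mod N`.

* `lr N γ` : the lower right entry mod `N`; multiplicative on `Γ₀(N)`, `Γ₁(N) = {lr = 1}`;
* `slash_eq_of_lr_eq` : for `γ, γ' ∈ Γ₀(N)`, `f ∣ γ` only depends on `lr N γ`;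
* `diamFun N f d = f ∣ γ_d`, `diamForm N f d` the cusp form; `diamFun_slash`;
* orthogonality of characters (Mathlib) gives the decomposition.
-/

set_option autoImplicit false

open CongruenceSubgroup UpperHalfPlane ModularForm
open scoped MatrixGroups ModularForm Manifold

noncomputable section

namespace Fermat.Agent.S48.Int.H31

variable (N : ℕ) [NeZero N]

/-- The lower right entry mod `N`. -/
def lr (γ : SL(2, ℤ)) : ZMod N := ((γ 1 1 : ℤ) : ZMod N)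

omit [NeZero N] in
lemma lr_one : lr N 1 = 1 := by
  simp [lr]

omit [NeZero N] in
lemma lr_mul {γ γ' : SL(2, ℤ)} (hγ : γ ∈ Gamma0 N) : lr N (γ * γ') = lr N γ * lr N γ' := by
  have h0 : ((γ 1 0 : ℤ) : ZMod N) = 0 := Gamma0_mem.mp hγ
  simp only [lr, Matrix.SpecialLinearGroup.coe_mul, Matrix.mul_apply, Fin.sum_univ_two,
    Int.cast_add, Int.cast_mul, h0, zero_mul, zero_add]

omit [NeZero N] in
lemma lr_mul_lr_inv {γ : SL(2, ℤ)} (hγ : γ ∈ Gamma0 N) : lr N γ * lr N γ⁻¹ = 1 := by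
  rw [← lr_mul N hγ, mul_inv_cancel, lr_one]

omit [NeZero N] in
lemma mem_Gamma1_iff {γ : SL(2, ℤ)} (hγ : γ ∈ Gamma0 N) : γ ∈ Gamma1 N ↔ lr N γ = 1 := by
  have h0 : ((γ 1 0 : ℤ) : ZMod N) = 0 := Gamma0_mem.mp hγ
  rw [Gamma1_mem]
  constructor
  · rintro ⟨-, h, -⟩
    exact h
  · intro h
    refine ⟨?_, h, h0⟩
    have hdet := Matrix.SpecialLinearGroup.det_coe γ
    rw [Matrix.det_fin_two] at hdet
    have h2 := congrArg (fun x : ℤ => (x : ZMod N)) hdet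
    simp only [Int.cast_sub, Int.cast_mul, Int.cast_one, h0, mul_zero, sub_zero] at h2
    have h3 : ((γ 1 1 : ℤ) : ZMod N) = 1 := h
    rw [h3, mul_one] at h2
    exact h2

/-- Every unit mod `N` is the lower right entry of an element of `Γ₀(N)`. -/
lemma exists_gamma (d : (ZMod N)ˣ) : ∃ γ : SL(2, ℤ), γ ∈ Gamma0 N ∧ lr N γ = (d : ZMod N) := by
  have hcop : Nat.Coprime (d : ZMod N).val N := ZMod.val_coe_unit_coprime d
  have hcop' : IsCoprime (((d : ZMod N).val : ℤ)) (N : ℤ) := Nat.isCoprime_iff_coprime.mpr hcop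
  obtain ⟨a, b, hab⟩ := hcop'
  have hdet : (!![a, -b; (N : ℤ), ((d : ZMod N).val : ℤ)]).det = 1 := by
    rw [Matrix.det_fin_two_of]
    linarith
  set γ : SL(2, ℤ) := ⟨!![a, -b; (N : ℤ), ((d : ZMod N).val : ℤ)], hdet⟩ with hγ
  refine ⟨γ, ?_, ?_⟩
  · rw [Gamma0_mem]
    simp [hγ]
  · simp [lr, hγ]

/-- The chosen element of `Γ₀(N)` with lower right entry `d`. -/
def gam (d : (ZMod N)ˣ) : SL(2, ℤ) := Classical.choose (exists_gamma N d)

lemma gam_mem (d : (ZMod N)ˣ) : gam N d ∈ Gamma0 N := (Classical.choose_spec (exists_gamma N d)).1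

lemma lr_gam (d : (ZMod N)ˣ) : lr N (gam N d) = (d : ZMod N) :=
  (Classical.choose_spec (exists_gamma N d)).2

variable {N}

omit [NeZero N] in
/-- On `Γ₀(N)` the slash of a form on `Γ₁(N)` only depends on the lower right entry. -/
lemma slash_eq_of_lr_eq {k : ℤ} (f : CuspForm (Gamma1 N) k) {γ γ' : SL(2, ℤ)}
    (hγ : γ ∈ Gamma0 N) (hγ' : γ' ∈ Gamma0 N) (h : lr N γ = lr N γ') :
    (f : ℍ → ℂ) ∣[k] γ = (f : ℍ → ℂ) ∣[k] γ' := by
  have h1 : γ' * γ⁻¹ ∈ Gamma0 N := (Gamma0 N).mul_mem hγ' ((Gamma0 N).inv_mem hγ)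
  have h2 : γ' * γ⁻¹ ∈ Gamma1 N := by
    rw [mem_Gamma1_iff N h1, lr_mul N hγ', ← h, lr_mul_lr_inv N hγ]
  have h3 : (f : ℍ → ℂ) ∣[k] (γ' * γ⁻¹) = f :=
    SlashInvariantForm.slash_action_eqn f (Matrix.SpecialLinearGroup.mapGL ℝ (γ' * γ⁻¹))
      ⟨_, h2, rfl⟩
  have h4 : γ' = (γ' * γ⁻¹) * γ := by group
  conv_rhs => rw [h4, SlashAction.slash_mul, h3]

/-- The unit `lr N γ` for `γ ∈ Γ₀(N)`. -/
def lrUnit {γ : SL(2, ℤ)} (hγ : γ ∈ Gamma0 N) : (ZMod N)ˣ :=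
  ⟨lr N γ, lr N γ⁻¹, lr_mul_lr_inv N hγ, by rw [mul_comm]; exact lr_mul_lr_inv N hγ⟩

omit [NeZero N] in
lemma coe_lrUnit {γ : SL(2, ℤ)} (hγ : γ ∈ Gamma0 N) : ((lrUnit hγ : (ZMod N)ˣ) : ZMod N) = lr N γ :=
  rfl

/-- `f ∣ γ_d`, the diamond operator `⟨d⟩` applied to `f`. -/
def diamFun {k : ℤ} (f : CuspForm (Gamma1 N) k) (d : (ZMod N)ˣ) : ℍ → ℂ :=
  (f : ℍ → ℂ) ∣[k] gam N d

lemma slash_eq_diamFun {k : ℤ} (f : CuspForm (Gamma1 N) k) {γ : SL(2, ℤ)} (hγ : γ ∈ Gamma0 N) :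
    (f : ℍ → ℂ) ∣[k] γ = diamFun f (lrUnit hγ) :=
  slash_eq_of_lr_eq f hγ (gam_mem N _) ((lr_gam N _).trans (coe_lrUnit hγ)).symm

lemma diamFun_slash {k : ℤ} (f : CuspForm (Gamma1 N) k) (d : (ZMod N)ˣ) {γ : SL(2, ℤ)}
    (hγ : γ ∈ Gamma0 N) : diamFun f d ∣[k] γ = diamFun f (d * lrUnit hγ) := by
  unfold diamFun
  rw [← SlashAction.slash_mul]
  refine slash_eq_of_lr_eq f ((Gamma0 N).mul_mem (gam_mem N d) hγ) (gam_mem N _) ?_
  rw [lr_mul N (gam_mem N d), lr_gam, lr_gam, Units.val_mul, coe_lrUnit]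

lemma diamFun_one {k : ℤ} (f : CuspForm (Gamma1 N) k) : diamFun f 1 = f := by
  have h1 : (1 : SL(2, ℤ)) ∈ Gamma0 N := (Gamma0 N).one_mem
  have h2 := slash_eq_diamFun f h1
  have h3 : lrUnit h1 = (1 : (ZMod N)ˣ) := Units.ext (lr_one N)
  rw [h3, SlashAction.slash_one] at h2
  exact h2.symm

omit [NeZero N] in
lemma lrUnit_eq_one_of_mem_Gamma1 {γ : SL(2, ℤ)} (hγ : γ ∈ Gamma1 N) :
    lrUnit (Gamma1_in_Gamma0 N hγ) = 1 :=
  Units.ext ((mem_Gamma1_iff N (Gamma1_in_Gamma0 N hγ)).mp hγ)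

/-- `⟨d⟩ f` as a cusp form on `Γ₁(N)`. -/
def diamForm {k : ℤ} (f : CuspForm (Gamma1 N) k) (d : (ZMod N)ˣ) : CuspForm (Gamma1 N) k where
  toFun := diamFun f d
  slash_action_eq' := by
    intro A hA
    obtain ⟨γ, hγ, rfl⟩ := hA
    have h := diamFun_slash f d (Gamma1_in_Gamma0 N hγ)
    rw [lrUnit_eq_one_of_mem_Gamma1 hγ, mul_one] at h
    exact h
  holo' := (CuspFormClass.holo f).slash k _
  zero_at_cusps' := by
    intro c hc
    rw [Subgroup.IsArithmetic.isCusp_iff_isCusp_SL2Z] at hc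
    rw [OnePoint.isZeroAt_iff_forall_SL2Z hc]
    intro γ _
    change IsZeroAtImInfty (((f : ℍ → ℂ) ∣[k] gam N d) ∣[k] γ)
    rw [← SlashAction.slash_mul]
    exact CuspFormClass.zero_at_infty_slash f (gam N d * γ)

lemma coe_diamForm {k : ℤ} (f : CuspForm (Gamma1 N) k) (d : (ZMod N)ˣ) :
    (diamForm f d : ℍ → ℂ) = diamFun f d := rfl

omit [NeZero N] in
lemma cuspForm_sum_apply {ι : Type} (s : Finset ι) {k : ℤ} (g : ι → CuspForm (Gamma1 N) k)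
    (z : ℍ) : (∑ i ∈ s, g i) z = ∑ i ∈ s, g i z := by
  classical
  induction s using Finset.induction_on with
  | empty => simp
  | insert a s ha ih => rw [Finset.sum_insert ha, Finset.sum_insert ha, add_apply, ih]

/-- The `χ`-component of `f`. -/
def neb {k : ℤ} (f : CuspForm (Gamma1 N) k) (χ : DirichletCharacter ℂ N) :
    CuspForm (Gamma1 N) k :=
  ((N.totient : ℂ)⁻¹) • ∑ d : (ZMod N)ˣ, χ ((d⁻¹ : (ZMod N)ˣ) : ZMod N) • diamForm f d

lemma neb_apply {k : ℤ} (f : CuspForm (Gamma1 N) k) (χ : DirichletCharacter ℂ N) (z : ℍ) :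
    neb f χ z =
      (N.totient : ℂ)⁻¹ * ∑ d : (ZMod N)ˣ, χ ((d⁻¹ : (ZMod N)ˣ) : ZMod N) * diamFun f d z := by
  unfold neb
  rw [smul_apply, cuspForm_sum_apply, smul_eq_mul]
  congr 1

/-- The `χ`-component has nebentypus `χ`. -/
theorem hasNeb_neb {k : ℤ} (f : CuspForm (Gamma1 N) k) (χ : DirichletCharacter ℂ N) :
    HasNeb N χ k (neb f χ) := by
  intro γ hγ
  funext z
  have hslash : ∀ d : (ZMod N)ˣ, diamFun f d (γ • z) * denom γ z ^ (-k) =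
      diamFun f (d * lrUnit hγ) z := by
    intro d
    rw [← diamFun_slash f d hγ, SL_slash_apply]
  have hχ : ∀ d : (ZMod N)ˣ, χ ((d⁻¹ : (ZMod N)ˣ) : ZMod N) =
      χ (lr N γ) * χ (((d * lrUnit hγ)⁻¹ : (ZMod N)ˣ) : ZMod N) := by
    intro d
    rw [← coe_lrUnit hγ, ← map_mul, ← Units.val_mul]
    congr 2
    rw [mul_inv_rev, ← mul_assoc, mul_inv_cancel, one_mul]
  have hsum : ∑ d : (ZMod N)ˣ, χ ((d⁻¹ : (ZMod N)ˣ) : ZMod N) * diamFun f (d * lrUnit hγ) z =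
      ∑ d : (ZMod N)ˣ, χ (lr N γ) * (χ ((d⁻¹ : (ZMod N)ˣ) : ZMod N) * diamFun f d z) := by
    rw [← Equiv.sum_comp (Equiv.mulRight (lrUnit hγ))
      (fun d : (ZMod N)ˣ => χ (lr N γ) * (χ ((d⁻¹ : (ZMod N)ˣ) : ZMod N) * diamFun f d z))]
    refine Finset.sum_congr rfl (fun d _ => ?_)
    rw [Equiv.coe_mulRight, hχ d, mul_assoc]
  calc (⇑(neb f χ) ∣[k] γ) z
      = neb f χ (γ • z) * denom γ z ^ (-k) := SL_slash_apply _ _ _
    _ = (N.totient : ℂ)⁻¹ *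
          ∑ d : (ZMod N)ˣ, χ ((d⁻¹ : (ZMod N)ˣ) : ZMod N) * diamFun f (d * lrUnit hγ) z := by
        rw [neb_apply, mul_assoc, Finset.sum_mul]
        congr 1
        refine Finset.sum_congr rfl (fun d _ => ?_)
        rw [mul_assoc, hslash d]
    _ = χ (lr N γ) * neb f χ z := by
        rw [hsum, neb_apply, ← Finset.mul_sum]
        ring
    _ = (χ (((γ 1 1 : ℤ) : ZMod N)) • (neb f χ : ℍ → ℂ)) z := rfl

/-- `f` is the sum of its nebentypus components. -/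
theorem sum_neb {k : ℤ} (f : CuspForm (Gamma1 N) k) (z : ℍ) :
    f z = ∑ χ : DirichletCharacter ℂ N, neb f χ z := by
  classical
  have hφ : (N.totient : ℂ) ≠ 0 := by
    have := Nat.totient_pos.mpr (Nat.pos_of_ne_zero (NeZero.ne N))
    exact_mod_cast this.ne'
  have h1 : ∀ d : (ZMod N)ˣ, ∑ χ : DirichletCharacter ℂ N, χ ((d⁻¹ : (ZMod N)ˣ) : ZMod N) =
      if d = 1 then (N.totient : ℂ) else 0 := by
    intro d
    rw [DirichletCharacter.sum_characters_eq ℂ]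
    congr 1
    rw [← Units.val_one, Units.val_inj, inv_eq_one]
  calc f z = diamFun f 1 z := by rw [diamFun_one]
    _ = (N.totient : ℂ)⁻¹ * ∑ d : (ZMod N)ˣ,
          (∑ χ : DirichletCharacter ℂ N, χ ((d⁻¹ : (ZMod N)ˣ) : ZMod N)) * diamFun f d z := by
        simp only [h1, ite_mul, zero_mul, Finset.sum_ite_eq', Finset.mem_univ, if_true]
        rw [← mul_assoc, inv_mul_cancel₀ hφ, one_mul]
    _ = ∑ χ : DirichletCharacter ℂ N, neb f χ z := by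
        simp only [neb_apply, ← Finset.mul_sum, Finset.sum_mul]
        rw [Finset.sum_comm]

/-- **A-Decomp**. -/
theorem stmt_Decomp : Stmt_Decomp := by
  intro N _ f
  exact ⟨fun χ => neb f χ, fun χ => hasNeb_neb f χ, fun z => sum_neb f z⟩

end Fermat.Agent.S48.Int.H31
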