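import Fermat.Agent.S48.Int.H55_Int12
import Fermat.Agent.S23.H22_GS4
import Fermat.Agent.S23.H96_DhatNeZero
import Fermat.Agent.S48.Int.H22_ProdPow

/-!
# S48, leaf A: Galois stability for cusp forms of weight one with nebentypus (helper55)

`f ∈ S₁(N, χ)`, `χ` odd, `E = E_{χ⁻¹}` of weight 3: `G = f E ∈ S₄(Γ₀(N))`, `P = f ^ m ∈ S_m(Γ₀(N))`.
Conjugates `G'`, `P'` (S23), `E' = E_{(σ ∘ χ)⁻¹}`; `G' ^ m = P' E' ^ m`, so `h = G' / E'` is
holomorphic, `h ^ m = P'`, and `h` is the conjugate of `f`.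
-/

set_option autoImplicit false

open CongruenceSubgroup UpperHalfPlane ModularForm
open scoped MatrixGroups ModularForm Manifold

namespace Fermat.Agent.S48.Int.H55

open Fermat.Agent.S23.H22 (Nice nice_of_modularForm)
open Fermat.Agent.NEB.H34 (sigmaChi)

/-- Conjugating the Eisenstein coefficient series conjugates the character. -/
theorem eisSeries_map (N : ℕ) (ψ : DirichletCharacter ℂ N) (σ : ℂ →+* ℂ) :
    (eisSeries N ψ).map σ = eisSeries N (ψ.ringHomComp σ) := by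
  ext n
  simp only [eisSeries, PowerSeries.coeff_map, PowerSeries.coeff_mk, sigmaChi, map_sum, map_mul,
    map_pow, map_natCast, MulChar.ringHomComp_apply]

/-- Cusp forms on `Γ₀(N)` vanish at `i∞` after any `SL(2, ℤ)`-translate. -/
theorem isZeroAtImInfty_slash_G0 {N : ℕ} [NeZero N] {k : ℤ} (P : CuspForm (Gamma0 N) k)
    (A : SL(2, ℤ)) : IsZeroAtImInfty ((P : ℍ → ℂ) ∣[k] A) := by
  have hc : IsCusp (Matrix.SpecialLinearGroup.mapGL ℝ A • OnePoint.infty) 𝒮ℒ :=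
    isCusp_SL2Z_iff'.mpr ⟨A, rfl⟩
  have hc' : IsCusp (Matrix.SpecialLinearGroup.mapGL ℝ A • OnePoint.infty)
      ((Gamma0 N : Subgroup SL(2, ℤ)) : Subgroup (GL (Fin 2) ℝ)) :=
    (Subgroup.IsArithmetic.isCusp_iff_isCusp_SL2Z _).mpr hc
  have hz := P.zero_at_cusps' hc'
  rw [OnePoint.isZeroAt_iff_forall_SL2Z hc] at hz
  exact hz A rfl

/-- The slash action on powers. -/
theorem pow_slash_SL2 (h : ℍ → ℂ) (m : ℕ) (k : ℤ) (A : SL(2, ℤ)) :
    (h ^ m) ∣[k * m] A = (h ∣[k] A) ^ m := by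
  induction m with
  | zero =>
    ext z
    simp [SL_slash_apply]
  | succ m ih =>
    have h1 : k * ((m + 1 : ℕ) : ℤ) = k * m + k := by push_cast; ring
    rw [h1, pow_succ, mul_slash_SL2, ih, pow_succ]

/-- Division with a root relation. -/
theorem exists_root_div (m : ℕ) (hm : 0 < m) (G D P : ℍ → ℂ) (hG : MDiff G) (hD : MDiff D)
    (hP : MDiff P) (hD0 : D ≠ 0) (hrel : ∀ z, G z ^ m = P z * D z ^ m) :
    ∃ h : ℍ → ℂ, MDiff h ∧ (∀ z, h z * D z = G z) ∧ ∀ z, h z ^ m = P z := by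
  obtain ⟨μ, rfl⟩ : ∃ μ, m = μ + 1 := ⟨m - 1, by omega⟩
  let c : ℕ → ℍ → ℂ := fun j => if j = μ then fun z => -P z else 0
  have hc : ∀ j, MDiff (c j) := by
    intro j
    simp only [c]
    split_ifs
    · exact hP.neg
    · exact mdifferentiable_const
  have hrel' : ∀ z, G z ^ (μ + 1) +
      ∑ j ∈ Finset.range (μ + 1), c j z * D z ^ (j + 1) * G z ^ (μ - j) = 0 := by
    intro z
    rw [Finset.sum_eq_single μ]
    · simp only [c, if_true, Nat.sub_self, pow_zero, mul_one]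
      rw [hrel z]; ring
    · intro j _ hj
      simp [c, hj]
    · intro h
      exact absurd (Finset.mem_range.2 (Nat.lt_succ_self μ)) h
  obtain ⟨h, hh, hhD⟩ := Fermat.Agent.S23.H96.exists_mdiff_div μ G D hG hD hD0 c hc hrel'
  refine ⟨h, hh, hhD, ?_⟩
  have hDm : MDiff (D ^ (μ + 1)) := hD.pow _
  have hDm0 : D ^ (μ + 1) ≠ 0 := by
    intro h0
    apply hD0
    ext z
    have := congrFun h0 z
    simpa using this
  have hF : MDiff (h ^ (μ + 1) - P) := (hh.pow _).sub hP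
  have hzero := Fermat.Agent.S23.H96.mdiff_eq_zero_of_mul_eq_zero (h ^ (μ + 1) - P) (D ^ (μ + 1))
    hF hDm hDm0 (fun z => by
      simp only [Pi.sub_apply, Pi.pow_apply]
      rw [sub_mul, ← mul_pow, hhD z, hrel z, sub_self])
  intro z
  have := congrFun hzero z
  simpa [sub_eq_zero] using this

/-- A function whose `m`-th power vanishes at `i∞` vanishes at `i∞`. -/
theorem isZeroAtImInfty_of_pow (m : ℕ) (hm : 0 < m) (g P : ℍ → ℂ) (hP : IsZeroAtImInfty P)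
    (hrel : ∀ z, g z ^ m = P z) : IsZeroAtImInfty g := by
  obtain ⟨μ, rfl⟩ : ∃ μ, m = μ + 1 := ⟨m - 1, by omega⟩
  let c : ℕ → ℍ → ℂ := fun j => if j = μ then fun z => -P z else 0
  refine Fermat.Agent.S23.H96.isZeroAtImInfty_of_monic_rel μ g c (fun j => ?_) (fun z => ?_)
  · simp only [c]
    split_ifs
    · exact hP.neg
    · exact Filter.zero_zeroAtFilter _
  · rw [Finset.sum_eq_single μ]
    · simp only [c, if_true, Nat.sub_self, pow_zero, mul_one]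
      rw [hrel z]; ring
    · intro j _ hj
      simp [c, hj]
    · intro h
      exact absurd (Finset.mem_range.2 (Nat.lt_succ_self μ)) h


/-- Build a cusp form on `Γ₁(N)`. -/
def mkCusp1 (N : ℕ) [NeZero N] (k : ℤ) (g : ℍ → ℂ) (hg : MDiff g)
    (hinv : ∀ γ : SL(2, ℤ), γ ∈ Gamma1 N → g ∣[k] γ = g)
    (hzero : ∀ A : SL(2, ℤ), IsZeroAtImInfty (g ∣[k] A)) : CuspForm (Gamma1 N) k where
  toFun := g
  slash_action_eq' := by
    intro A hA
    obtain ⟨γ, hγ, rfl⟩ := hA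
    exact hinv γ hγ
  holo' := hg
  zero_at_cusps' := by
    intro c hc
    rw [Subgroup.IsArithmetic.isCusp_iff_isCusp_SL2Z] at hc
    rw [OnePoint.isZeroAt_iff_forall_SL2Z hc]
    intro γ _
    exact hzero γ

theorem mkCusp1_coe (N : ℕ) [NeZero N] (k : ℤ) (g : ℍ → ℂ) (hg : MDiff g)
    (hinv : ∀ γ : SL(2, ℤ), γ ∈ Gamma1 N → g ∣[k] γ = g)
    (hzero : ∀ A : SL(2, ℤ), IsZeroAtImInfty (g ∣[k] A)) :
    ((mkCusp1 N k g hg hinv hzero : CuspForm (Gamma1 N) k) : ℍ → ℂ) = g := rfl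

theorem eisSeries_ne_zero (N : ℕ) (ψ : DirichletCharacter ℂ N) : eisSeries N ψ ≠ 0 := by
  intro h
  have h1 := congrArg (PowerSeries.coeff 1) h
  simp [eisSeries, sigmaChi_one] at h1

theorem slash_eq_G0 {N : ℕ} [NeZero N] {k : ℤ} (G : CuspForm (Gamma0 N) k) {γ : SL(2, ℤ)}
    (hγ : γ ∈ Gamma0 N) : (G : ℍ → ℂ) ∣[k] γ = G :=
  SlashInvariantFormClass.slash_action_eq G (Matrix.SpecialLinearGroup.mapGL ℝ γ) ⟨γ, hγ, rfl⟩

/-- **A-NebGS** from the sub-leaves. -/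
theorem stmt_NebGS_of (hEis : Stmt_Eis) (hProd : Stmt_Prod) (hPow : Stmt_Pow) : Stmt_NebGS := by
  intro N _ hN χ f hf σ
  by_cases hχ : χ (-1) = -1
  swap
  · have h0 : (f : ℍ → ℂ) = 0 := eq_zero_of_hasNeb_of_ne hf hχ
    refine ⟨0, ?_⟩
    have hq : qExpansion 1 (f : ℍ → ℂ) = 0 := by
      have h1 := Nice.qExpansion_smul (h := 1) one_pos (nice_G1 f) (0 : ℂ)
      rw [h0] at h1 ⊢
      simpa using h1
    have hq0 : qExpansion 1 ((0 : CuspForm (Gamma1 N) 1) : ℍ → ℂ) = 0 := by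
      have h1 := Nice.qExpansion_smul (h := 1) one_pos (nice_G1 (0 : CuspForm (Gamma1 N) 1)) (0 : ℂ)
      simpa using h1
    rw [hq, hq0, map_zero]
  -- the odd case
  have hψ : χ⁻¹ (-1) = -1 := by
    rw [MulChar.inv_apply_eq_inv', hχ]
    norm_num
  have hψ' : (χ⁻¹.ringHomComp σ) (-1) = -1 := by
    rw [MulChar.ringHomComp_apply, hψ, map_neg, map_one]
  obtain ⟨E, hEd, hEb, hEn, hEq⟩ := hEis N hN χ⁻¹ hψ
  obtain ⟨E', hE'd, hE'b, hE'n, hE'q⟩ := hEis N hN (χ⁻¹.ringHomComp σ) hψ'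
  obtain ⟨G, hGf, hGq⟩ := hProd N χ 1 3 f E hf hEd hEb hEn
  obtain ⟨m, hm, hχm⟩ : ∃ m : ℕ, 0 < m ∧ χ ^ m = 1 :=
    ⟨orderOf χ, orderOf_pos χ, pow_orderOf_eq_one χ⟩
  obtain ⟨P, hPf, hPq⟩ := hPow N χ 1 f m hm hχm hf
  obtain ⟨G', hG'q⟩ := Fermat.Agent.S23.H22.galois_stable_of_Dhat N
    (Fermat.Agent.S23.H96.Dhat_ne_zero N) σ G
  obtain ⟨P', hP'q⟩ := Fermat.Agent.S23.H22.galois_stable_of_Dhat N
    (Fermat.Agent.S23.H96.Dhat_ne_zero N) σ P
  have hE'nice : Nice 1 E' := Fermat.Agent.S48.Int.H22.nice_of_hasNeb hE'n hE'd hE'b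
  have hG'nice : Nice 1 (G' : ℍ → ℂ) := Fermat.Agent.S23.H22.nice_G0 N G'
  have hP'nice : Nice 1 (P' : ℍ → ℂ) := Fermat.Agent.S23.H22.nice_G0 N P'
  -- the root relation
  have hrelfun : (G' : ℍ → ℂ) ^ m = (P' : ℍ → ℂ) * E' ^ m := by
    apply Nice.eq_of_qExpansion_eq one_pos (hG'nice.pow m) (hP'nice.mul (hE'nice.pow m))
    rw [Nice.qExpansion_pow one_pos hG'nice, Nice.qExpansion_mul one_pos hP'nice (hE'nice.pow m),
      Nice.qExpansion_pow one_pos hE'nice, hG'q, hP'q, hGq, hPq, hE'q, hEq, map_mul, map_pow,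
      eisSeries_map, mul_pow]
  have hE'0 : E' ≠ 0 := by
    intro h0
    have h1 := Nice.qExpansion_smul (h := 1) one_pos hE'nice (0 : ℂ)
    rw [h0] at hE'q
    have h2 : qExpansion 1 (0 : ℍ → ℂ) = 0 := by
      rw [h0] at h1
      simpa using h1
    rw [h2] at hE'q
    exact eisSeries_ne_zero N _ hE'q.symm
  obtain ⟨h, hh, hhE, hhP⟩ := exists_root_div m hm (G' : ℍ → ℂ) E' (P' : ℍ → ℂ)
    (CuspFormClass.holo G') hE'd (CuspFormClass.holo P') hE'0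
    (fun z => by
      have := congrFun hrelfun z
      simpa using this)
  have hhEfun : h * E' = (G' : ℍ → ℂ) := funext hhE
  have hhPfun : h ^ m = (P' : ℍ → ℂ) := funext hhP
  -- invariance under `Γ₁(N)`
  have hinv : ∀ γ : SL(2, ℤ), γ ∈ Gamma1 N → h ∣[(1 : ℤ)] γ = h := by
    intro γ hγ
    have hγ0 : γ ∈ Gamma0 N := Gamma1_in_Gamma0 N hγ
    have hE'γ : E' ∣[(3 : ℤ)] γ = E' := Fermat.Agent.S48.Int.H22.slash_eq_of_hasNeb hE'n hγ
    have hG'γ : (G' : ℍ → ℂ) ∣[(1 + 3 : ℤ)] γ = G' := slash_eq_G0 G' hγ0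
    have h1 : (h ∣[(1 : ℤ)] γ) * E' = h * E' := by
      calc (h ∣[(1 : ℤ)] γ) * E' = (h ∣[(1 : ℤ)] γ) * (E' ∣[(3 : ℤ)] γ) := by rw [hE'γ]
        _ = (h * E') ∣[(1 + 3 : ℤ)] γ := (mul_slash_SL2 1 3 γ h E').symm
        _ = h * E' := by rw [hhEfun, hG'γ]
    have hF : MDiff (h ∣[(1 : ℤ)] γ - h) := (hh.slash 1 _).sub hh
    have hzero := Fermat.Agent.S23.H96.mdiff_eq_zero_of_mul_eq_zero (h ∣[(1 : ℤ)] γ - h) E'
      hF hE'd hE'0 (fun z => by
        have := congrFun h1 z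
        simp only [Pi.mul_apply] at this
        simp only [Pi.sub_apply, sub_mul, this, sub_self])
    exact sub_eq_zero.1 hzero
  -- vanishing at the cusps
  have hzero : ∀ A : SL(2, ℤ), IsZeroAtImInfty (h ∣[(1 : ℤ)] A) := by
    intro A
    refine isZeroAtImInfty_of_pow m hm (h ∣[(1 : ℤ)] A) ((P' : ℍ → ℂ) ∣[(1 * m : ℤ)] A)
      (isZeroAtImInfty_slash_G0 P' A) (fun z => ?_)
    have := congrFun (pow_slash_SL2 h m 1 A) z
    rw [hhPfun] at this
    rw [this]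
    rfl
  refine ⟨mkCusp1 N 1 h hh hinv hzero, ?_⟩
  rw [mkCusp1_coe]
  have hhnice : Nice 1 h := by
    have := nice_G1 (mkCusp1 N 1 h hh hinv hzero)
    rwa [mkCusp1_coe] at this
  have hmul : qExpansion 1 h * qExpansion 1 E' =
      (qExpansion 1 (f : ℍ → ℂ)).map σ * qExpansion 1 E' := by
    rw [← Nice.qExpansion_mul one_pos hhnice hE'nice, hhEfun, hG'q, hGq, map_mul, hE'q, hEq,
      eisSeries_map]
  have hne : qExpansion 1 E' ≠ 0 := by
    rw [hE'q]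
    exact eisSeries_ne_zero N _
  exact mul_right_cancel₀ hne hmul

end Fermat.Agent.S48.Int.H55
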