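import Fermat.Agent.S48.Int.Defs

/-!
# S48, leaf A: the ring of character values and division by the Eisenstein series (helper55)
-/

set_option autoImplicit false

open scoped MatrixGroups

namespace Fermat.Agent.S48.Int.H55

open Fermat.Agent.NEB.H34 (sigmaChi)

/-- The values of the Dirichlet characters mod `N`. -/
def charVals (N : ℕ) : Set ℂ := {x | ∃ (χ : DirichletCharacter ℂ N) (a : ZMod N), x = χ a}

/-- The ring generated by the values of the Dirichlet characters mod `N`. -/
def charRing (N : ℕ) : Subalgebra ℤ ℂ := Algebra.adjoin ℤ (charVals N)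

theorem charVals_finite (N : ℕ) [NeZero N] : (charVals N).Finite := by
  have h : charVals N = Set.range fun x : DirichletCharacter ℂ N × ZMod N => x.1 x.2 := by
    ext x
    constructor
    · rintro ⟨χ, a, rfl⟩
      exact ⟨(χ, a), rfl⟩
    · rintro ⟨⟨χ, a⟩, rfl⟩
      exact ⟨χ, a, rfl⟩
  rw [h]
  exact Set.finite_range _

theorem isIntegral_charVal {N : ℕ} [NeZero N] (χ : DirichletCharacter ℂ N) (a : ZMod N) :
    IsIntegral ℤ (χ a) := by
  by_cases ha : IsUnit a
  · obtain ⟨u, rfl⟩ := ha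
    have hpos : 0 < orderOf u := orderOf_pos u
    refine IsIntegral.of_pow hpos ?_
    have : χ (u : ZMod N) ^ orderOf u = 1 := by
      rw [← map_pow, ← Units.val_pow_eq_pow_val, pow_orderOf_eq_one, Units.val_one, map_one]
    rw [this]
    exact isIntegral_one
  · rw [MulChar.map_nonunit χ ha]
    exact isIntegral_zero

theorem charRing_fg (N : ℕ) [NeZero N] : (charRing N).toSubmodule.FG := by
  refine fg_adjoin_of_finite (charVals_finite N) ?_
  rintro x ⟨χ, a, rfl⟩
  exact isIntegral_charVal χ a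

theorem charVal_mem {N : ℕ} (χ : DirichletCharacter ℂ N) (a : ZMod N) : χ a ∈ charRing N :=
  Algebra.subset_adjoin ⟨χ, a, rfl⟩

theorem sigmaChi_mem {N : ℕ} (ψ : DirichletCharacter ℂ N) (n : ℕ) :
    sigmaChi (fun c : ℤ => ψ ((c : ZMod N))) 2 n ∈ charRing N := by
  unfold sigmaChi
  refine Subalgebra.sum_mem _ fun x _ => ?_
  refine Subalgebra.mul_mem _ (charVal_mem ψ _) ?_
  exact Subalgebra.pow_mem _ (natCast_mem _ _) _

theorem sigmaChi_zero {N : ℕ} (ψ : DirichletCharacter ℂ N) :
    sigmaChi (fun c : ℤ => ψ ((c : ZMod N))) 2 0 = 0 := by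
  simp [sigmaChi]

theorem sigmaChi_one {N : ℕ} (ψ : DirichletCharacter ℂ N) :
    sigmaChi (fun c : ℤ => ψ ((c : ZMod N))) 2 1 = 1 := by
  simp [sigmaChi]

/-- The unit part of the Eisenstein coefficient series, over the ring of character values. -/
noncomputable def eisUnit (N : ℕ) (ψ : DirichletCharacter ℂ N) : PowerSeries (charRing N) :=
  PowerSeries.mk fun n => ⟨sigmaChi (fun c : ℤ => ψ ((c : ZMod N))) 2 (n + 1), sigmaChi_mem ψ _⟩

theorem eisSeries_eq (N : ℕ) (ψ : DirichletCharacter ℂ N) :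
    eisSeries N ψ = PowerSeries.X * (eisUnit N ψ).map (algebraMap (charRing N) ℂ) := by
  ext n
  rcases n with _ | n
  · simp [eisSeries, sigmaChi_zero]
  · rw [PowerSeries.coeff_succ_X_mul]
    simp [eisSeries, eisUnit]

theorem isUnit_eisUnit (N : ℕ) (ψ : DirichletCharacter ℂ N) : IsUnit (eisUnit N ψ) := by
  rw [PowerSeries.isUnit_iff_constantCoeff]
  have : PowerSeries.constantCoeff (eisUnit N ψ) = 1 := by
    rw [← PowerSeries.coeff_zero_eq_constantCoeff_apply]
    apply Subtype.ext
    simp [eisUnit, sigmaChi_one]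
  rw [this]
  exact isUnit_one

/-- **Division by the Eisenstein series**: if the coefficients of `φ * eisSeries N ψ` lie in `Λ`, then
the coefficients of `φ` lie in `Λ * charRing N`. -/
theorem coeff_mem_of_mul_eisSeries (N : ℕ) (ψ : DirichletCharacter ℂ N) (φ : PowerSeries ℂ)
    (Λ : Submodule ℤ ℂ) (h : ∀ n, PowerSeries.coeff n (φ * eisSeries N ψ) ∈ Λ) (n : ℕ) :
    PowerSeries.coeff n φ ∈ Λ * (charRing N).toSubmodule := by
  obtain ⟨V, hV⟩ := (isUnit_eisUnit N ψ).exists_right_inv
  set U' : PowerSeries ℂ := (eisUnit N ψ).map (algebraMap (charRing N) ℂ) with hU'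
  set V' : PowerSeries ℂ := V.map (algebraMap (charRing N) ℂ) with hV'
  have hUV : U' * V' = 1 := by
    rw [hU', hV', ← map_mul, hV, map_one]
  have h1 : φ * PowerSeries.X = (φ * eisSeries N ψ) * V' := by
    rw [eisSeries_eq, ← hU', mul_assoc, mul_assoc, hUV, mul_one]
  have h2 : PowerSeries.coeff n φ = PowerSeries.coeff (n + 1) (φ * PowerSeries.X) := by
    rw [PowerSeries.coeff_succ_mul_X]
  rw [h2, h1, PowerSeries.coeff_mul]
  refine Submodule.sum_mem _ fun x _ => ?_
  refine Submodule.mul_mem_mul (h _) ?_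
  rw [hV', PowerSeries.coeff_map]
  exact (PowerSeries.coeff x.2 V).2

end Fermat.Agent.S48.Int.H55
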