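import Fermat.Agent.S48.Int.Defs
import Fermat.Agent.S23.H77_BDHecke
import Fermat.Agent.S22

/-!
# S48, leaf A, sub-leaf A-CoeffFG (helper1)

The `q`-coefficients of a cusp form `F` of weight `k ≥ 1` on `Γ₀(N)` lie in a finitely generated
subgroup of `ℂ`: `a_n(F) = a_1(T_n F)` with `T_n` in the Hecke algebra, which is a finitely
generated `ℤ`-module (S22).
-/

set_option autoImplicit false

namespace Fermat.Agent.S48.Int.H01

open ModularFormClass CuspForm UpperHalfPlane ModularForm
open Fermat.Agent.S23.H77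

local notation "Γ₀(" N ")" => CongruenceSubgroup.Gamma0 N

variable {N : ℕ}

/-- For every `n ≥ 1` there is `T_n` in the Hecke algebra of weight `k = m + 1` with
`a₁ (T_n g) = a_n g`. -/
theorem exists_hecke_coeff_wt [NeZero N] (k : ℤ) (m : ℕ) (hk : k - 1 = m) (n : ℕ) (hn : 0 < n) :
    ∃ T ∈ CuspForm.heckeAlgebra N k ∅, ∀ g : CuspForm Γ₀(N) k,
      coeffLin N k 1 (T g) = coeffLin N k n g := by
  induction n using Nat.strong_induction_on with
  | _ n ih =>
    by_cases h1 : n = 1
    · subst h1
      exact ⟨1, Subalgebra.one_mem _, fun g => rfl⟩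
    · have hp : (n.minFac).Prime := Nat.minFac_prime h1
      obtain ⟨r, hr⟩ : n.minFac ∣ n := Nat.minFac_dvd n
      set p := n.minFac with hpdef
      have hp0 : 0 < p := hp.pos
      have hr0 : 0 < r := by
        rcases Nat.eq_zero_or_pos r with h | h
        · rw [h, mul_zero] at hr; omega
        · exact h
      have hrn : r < n := by
        rw [hr]
        have : 2 ≤ p := hp.two_le
        nlinarith
      obtain ⟨Tr, hTr, hTr'⟩ := ih r hrn hr0
      by_cases hpN : p ∣ N
      · refine ⟨Tr * CuspForm.heckeULin k hpN,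
          mul_mem hTr (CuspForm.heckeULin_mem_heckeAlgebra hp hpN (by simp)), fun g => ?_⟩
        rw [Module.End.mul_apply, hTr', coeffLin_heckeULin hp hpN, ModularForm.coeffHeckeU_apply,
          hr, mul_comm]
      · by_cases hpr : p ∣ r
        · have hrp0 : 0 < r / p := Nat.div_pos (Nat.le_of_dvd hr0 hpr) hp0
          have hrpn : r / p < n := lt_of_le_of_lt (Nat.div_le_self r p) hrn
          obtain ⟨Tr', hTr'mem, hTr'spec⟩ := ih (r / p) hrpn hrp0
          refine ⟨Tr * CuspForm.heckeTLin k hp hpN - ((p : ℤ) ^ m) • Tr',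
            sub_mem (mul_mem hTr (CuspForm.heckeTLin_mem_heckeAlgebra hp hpN (by simp)))
              (Subalgebra.zsmul_mem _ hTr'mem _), fun g => ?_⟩
          rw [LinearMap.sub_apply, LinearMap.smul_apply, Module.End.mul_apply, map_sub, hTr',
            coeffLin_heckeTLin hp hpN, ModularForm.coeffHeckeT_of_dvd k hpr]
          have hz : (((p : ℤ) ^ m) • Tr' g) = ((p : ℂ) ^ m) • Tr' g := by
            rw [← Int.cast_smul_eq_zsmul ℂ]
            push_cast
            rfl
          rw [hz, map_smul, hTr'spec, hr, mul_comm p r, hk, zpow_natCast]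
          simp only [smul_eq_mul]
          ring
        · refine ⟨Tr * CuspForm.heckeTLin k hp hpN,
            mul_mem hTr (CuspForm.heckeTLin_mem_heckeAlgebra hp hpN (by simp)), fun g => ?_⟩
          rw [Module.End.mul_apply, hTr', coeffLin_heckeTLin hp hpN,
            ModularForm.coeffHeckeT_of_not_dvd k hpr, hr, mul_comm]

/-- The `q`-coefficients of a cusp form of weight `k = m + 1` on `Γ₀(N)` lie in a finitely
generated subgroup of `ℂ`. -/
theorem coeff_mem_fg [NeZero N] (k : ℤ) (m : ℕ) (hk : k - 1 = m) (F : CuspForm Γ₀(N) k) :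
    ∃ Λ : Submodule ℤ ℂ, Λ.FG ∧ ∀ n : ℕ, (qExpansion 1 F).coeff n ∈ Λ := by
  classical
  have hfin : Module.Finite ℤ (CuspForm.heckeAlgebra N k ∅) := Fermat.Agent.S22.result N k ∅
  let Φ : CuspForm.heckeAlgebra N k ∅ →ₗ[ℤ] ℂ :=
    { toFun := fun T => coeffLin N k 1 ((T : Module.End ℂ (CuspForm Γ₀(N) k)) F)
      map_add' := fun T T' => by
        simp only [Subalgebra.coe_add, LinearMap.add_apply, map_add]
      map_smul' := fun c T => by
        simp only [Subalgebra.coe_smul, LinearMap.smul_apply, eq_intCast, Int.cast_id]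
        have hz : (c • ((T : Module.End ℂ (CuspForm Γ₀(N) k)) F))
            = ((c : ℂ)) • ((T : Module.End ℂ (CuspForm Γ₀(N) k)) F) := by
          rw [Int.cast_smul_eq_zsmul]
        rw [hz, map_smul, smul_eq_mul, zsmul_eq_mul] }
  refine ⟨LinearMap.range Φ, ?_, fun n => ?_⟩
  · rw [LinearMap.range_eq_map]
    exact (Module.Finite.fg_top).map Φ
  · rcases Nat.eq_zero_or_pos n with h0 | hn
    · subst h0
      have : (qExpansion 1 F).coeff 0 = 0 := coeffLin_zero_eq_zero F
      rw [this]
      exact Submodule.zero_mem _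
    · obtain ⟨T, hT, hTspec⟩ := exists_hecke_coeff_wt (N := N) k m hk n hn
      exact ⟨⟨T, hT⟩, hTspec F⟩

/-- **A-CoeffFG.** -/
theorem stmt_CoeffFG : Stmt_CoeffFG := by
  intro N _ F
  exact coeff_mem_fg (4 : ℤ) 3 (by norm_num) F

end Fermat.Agent.S48.Int.H01
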