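import Fermat.Agent.S48.Int.Defs
import Fermat.Agent.Lib.TwistedEisensteinChar

/-!
# S48, leaf A, sub-leaf A-Eis (helper1): the weight 3 Eisenstein series of an odd character

`E_ψ = C⁻¹ · ∑_{(c,d)} ψ(c) (c z + d)⁻³`, `C = 2 (-2πi)³ / 2!`.  Holomorphy, boundedness at the
cusps and the slash rule come from `Lib/TwistedEisenstein.lean` (helper96), the `q`-expansion from
`NEB.H34.wEis_cWeight_eq` (helper34).  Pattern: `NEB/H29_EisAn.lean` (helper29).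
-/

set_option autoImplicit false

open UpperHalfPlane hiding I
open ModularForm EisensteinSeries Filter Topology Complex Set
open scoped MatrixGroups Manifold Real Nat

noncomputable section

namespace Fermat.Agent.S48.Int.H01

open Fermat.Agent.Lib.TwistedEisenstein Fermat.Agent.NEB.H34

variable (N : ℕ) (ψ : DirichletCharacter ℂ N)

/-- The function `c ↦ ψ(c mod N)` on `ℤ`. -/
def chiOf (c : ℤ) : ℂ := ψ ((c : ZMod N))

theorem norm_chiOf_le (c : ℤ) : ‖chiOf N ψ c‖ ≤ 1 := DirichletCharacter.norm_le_one ψ _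

theorem chiOf_zero (hN : 1 < N) : chiOf N ψ 0 = 0 := by
  have : Fact (1 < N) := ⟨hN⟩
  unfold chiOf
  rw [Int.cast_zero]
  exact MulChar.map_zero ψ

theorem chiOf_neg (hodd : ψ (-1) = -1) (c : ℤ) : chiOf N ψ (-c) = (-1) ^ 3 * chiOf N ψ c := by
  unfold chiOf
  rw [Int.cast_neg, ← neg_one_mul, map_mul, hodd]
  norm_num

theorem chiOf_mul (a b : ZMod N) (c : ℤ) (h : ((c : ℤ) : ZMod N) = a * b) :
    chiOf N ψ c = ψ a * ψ b := by
  unfold chiOf
  rw [h, map_mul]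

theorem norm_cWeight_chiOf_le (v : Fin 2 → ℤ) : ‖cWeight (chiOf N ψ) v‖ ≤ 1 :=
  norm_chiOf_le N ψ _

/-- The constant `2 (-2πi)³ / 2!`. -/
def eisC3 : ℂ := 2 * ((-2 * π * I) ^ 3 / ((3 - 1)! : ℕ))

theorem eisC3_ne_zero : eisC3 ≠ 0 := by
  unfold eisC3
  have hpi : (π : ℂ) ≠ 0 := by exact_mod_cast Real.pi_ne_zero
  have : (-2 * (π : ℂ) * I) ≠ 0 := by
    simp [hpi, Complex.I_ne_zero]
  have h3 : (((3 - 1)! : ℕ) : ℂ) ≠ 0 := by
    exact_mod_cast Nat.factorial_ne_zero (3 - 1)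
  exact mul_ne_zero two_ne_zero (div_ne_zero (pow_ne_zero 3 this) h3)

/-- The Eisenstein series `E_ψ` of weight 3. -/
def eis3 : ℍ → ℂ := fun z => eisC3⁻¹ * wEis 3 (cWeight (chiOf N ψ)) z

theorem eis3_mdifferentiable : MDiff (eis3 N ψ) := by
  have h := wEis_mdifferentiable (k := 3) (by norm_num) (norm_cWeight_chiOf_le N ψ)
  exact (mdifferentiable_const (c := eisC3⁻¹)).mul h

theorem eis3_slash (A : SL(2, ℤ)) :
    eis3 N ψ ∣[(3 : ℤ)] A = fun z => eisC3⁻¹ * wEis 3 (wSlash (cWeight (chiOf N ψ)) A) z := by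
  unfold eis3
  rw [smul_slash_SL, wEis_slash]

theorem eis3_isBoundedAtImInfty_slash (A : SL(2, ℤ)) :
    IsBoundedAtImInfty (eis3 N ψ ∣[(3 : ℤ)] A) := by
  rw [eis3_slash]
  have h := isBoundedAtImInfty_wEis (k := 3) (by norm_num)
    (norm_wSlash_le (norm_cWeight_chiOf_le N ψ) A)
  exact (Filter.const_boundedAtFilter atImInfty (eisC3⁻¹)).mul h

/-! ### The slash rule for `Γ₀(N)` -/

open Matrix in
theorem cast_vecMul_inv_zero' (γ : SL(2, ℤ)) (hγ : γ ∈ CongruenceSubgroup.Gamma0 N)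
    (v : Fin 2 → ℤ) :
    ((((v ᵥ* ((γ⁻¹ : SL(2, ℤ)) : Matrix (Fin 2) (Fin 2) ℤ)) 0 : ℤ)) : ZMod N)
      = (((γ 1 1 : ℤ)) : ZMod N) * ((v 0 : ℤ) : ZMod N) := by
  set w := v ᵥ* ((γ⁻¹ : SL(2, ℤ)) : Matrix (Fin 2) (Fin 2) ℤ) with hw
  have hv : v = w ᵥ* (γ : Matrix (Fin 2) (Fin 2) ℤ) := (vecMul_inv_vecMul γ v).symm
  have hv0 : v 0 = w 0 * γ 0 0 + w 1 * γ 1 0 := by
    rw [hv]
    simp [Matrix.vecMul, Matrix.vec2_dotProduct]
  have hc : ((γ 1 0 : ℤ) : ZMod N) = 0 := CongruenceSubgroup.Gamma0_mem.mp hγ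
  have hdet : γ 0 0 * γ 1 1 - γ 0 1 * γ 1 0 = 1 := by
    have := γ.det_coe
    rwa [Matrix.det_fin_two] at this
  have hdet' : ((γ 0 0 : ℤ) : ZMod N) * ((γ 1 1 : ℤ) : ZMod N) = 1 := by
    have := congrArg (fun x : ℤ => (x : ZMod N)) hdet
    simp only [Int.cast_sub, Int.cast_mul, Int.cast_one, hc, mul_zero, sub_zero] at this
    exact this
  rw [hv0]
  push_cast
  rw [hc, mul_zero, add_zero]
  calc ((w 0 : ℤ) : ZMod N)
      = (w 0 : ZMod N) * (((γ 0 0 : ℤ) : ZMod N) * ((γ 1 1 : ℤ) : ZMod N)) := by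
        rw [hdet', mul_one]
    _ = ((γ 1 1 : ℤ) : ZMod N) * ((w 0 : ZMod N) * ((γ 0 0 : ℤ) : ZMod N)) := by ring

theorem eis3_hasNeb : HasNeb N ψ 3 (eis3 N ψ) := by
  intro γ hγ
  rw [eis3_slash]
  have hw : wSlash (cWeight (chiOf N ψ)) γ =
      fun v => ψ (((γ 1 1 : ℤ) : ZMod N)) * cWeight (chiOf N ψ) v := by
    funext v
    rw [wSlash_apply]
    simp only [cWeight]
    exact chiOf_mul N ψ _ _ _ (cast_vecMul_inv_zero' N γ hγ v)
  rw [hw]
  funext z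
  rw [wEis_const_mul, Pi.smul_apply, smul_eq_mul, eis3]
  ring

/-! ### The `q`-expansion -/

theorem sigmaChi_zero (χ : ℤ → ℂ) (k : ℕ) : sigmaChi χ k 0 = 0 := by
  simp [sigmaChi]

theorem norm_sigmaChi_le (n : ℕ) : ‖sigmaChi (chiOf N ψ) 2 n‖ ≤ (n : ℝ) ^ 3 := by
  unfold sigmaChi
  refine (norm_sum_le _ _).trans ?_
  have h1 : ∀ x ∈ n.divisorsAntidiagonal,
      ‖chiOf N ψ (x.1 : ℤ) * ((x.2 : ℕ) : ℂ) ^ 2‖ ≤ ((x.2 : ℕ) : ℝ) ^ 2 := by
    intro x _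
    rw [norm_mul, norm_pow, Complex.norm_natCast]
    exact mul_le_of_le_one_left (by positivity) (norm_chiOf_le N ψ _)
  refine (Finset.sum_le_sum h1).trans ?_
  have h2 : ∑ x ∈ n.divisorsAntidiagonal, ((x.2 : ℕ) : ℝ) ^ 2
      = ((ArithmeticFunction.sigma 2 n : ℕ) : ℝ) := by
    rw [ArithmeticFunction.sigma_apply, ← Nat.sum_div_divisors n (fun d => d ^ 2),
      Nat.sum_divisorsAntidiagonal (fun _ b => ((b : ℕ) : ℝ) ^ 2)]
    push_cast
    rfl
  rw [h2]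
  exact_mod_cast ArithmeticFunction.sigma_le_pow_succ 2 n

theorem summable_sigmaChi (τ : ℍ) :
    Summable fun n : ℕ => sigmaChi (chiOf N ψ) 2 n * cexp (2 * π * I * τ) ^ n := by
  apply Summable.of_norm_bounded
    (summable_norm_pow_mul_geometric_of_norm_lt_one 3 (norm_exp_two_pi_I_lt_one τ))
  intro n
  simp only [norm_mul, Complex.norm_natCast, norm_pow]
  gcongr
  have := norm_sigmaChi_le N ψ n
  simpa using this

theorem eis3_eq_tsum (hN : 1 < N) (hodd : ψ (-1) = -1) (τ : ℍ) :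
    eis3 N ψ τ = ∑' n : ℕ, sigmaChi (chiOf N ψ) 2 n * cexp (2 * π * I * τ) ^ n := by
  have h := wEis_cWeight_eq (k := 3) (by norm_num) (chiOf N ψ) (norm_chiOf_le N ψ)
    (chiOf_neg N ψ hodd) (chiOf_zero N ψ hN) τ
  have e3 : ((3 : ℕ) : ℤ) = (3 : ℤ) := by norm_num
  rw [e3] at h
  unfold eis3
  rw [h, ← tsum_zero_pnat_eq_tsum_nat (summable_sigmaChi N ψ τ), sigmaChi_zero]
  simp only [zero_mul, zero_add]
  have hC : (2 * ((-2 * (π : ℂ) * I) ^ 3 / ((3 - 1)! : ℕ)) : ℂ) = eisC3 := rfl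
  rw [hC, ← mul_assoc, inv_mul_cancel₀ eisC3_ne_zero, one_mul]

theorem hasSum_eis3 (hN : 1 < N) (hodd : ψ (-1) = -1) (τ : ℍ) :
    HasSum (fun m : ℕ => sigmaChi (chiOf N ψ) 2 m • Function.Periodic.qParam 1 τ ^ m)
      (eis3 N ψ τ) := by
  rw [eis3_eq_tsum N ψ hN hodd τ]
  have h1 := (summable_sigmaChi N ψ τ).hasSum
  have hf : (fun m : ℕ => sigmaChi (chiOf N ψ) 2 m • Function.Periodic.qParam 1 τ ^ m)
      = fun i : ℕ => sigmaChi (chiOf N ψ) 2 i * cexp (2 * π * I * τ) ^ i := by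
    funext m
    simp only [smul_eq_mul, Function.Periodic.qParam, ofReal_one, div_one]
  rw [hf]
  exact h1

open Matrix in
theorem tInvariant_cWeight' (χ : ℤ → ℂ) : TInvariant (cWeight χ) := by
  intro v
  unfold cWeight
  congr 1
  simp [Matrix.vecMul, ModularGroup.T]
  rfl

theorem periodic_eis3 : Function.Periodic ((eis3 N ψ) ∘ ofComplex) (1 : ℝ) := by
  have h := periodic_wEis (k := 3) (tInvariant_cWeight' (chiOf N ψ))
  intro x
  have := h x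
  simp only [Function.comp_apply, eis3] at this ⊢
  rw [this]

theorem eis3_isBoundedAtImInfty : IsBoundedAtImInfty (eis3 N ψ) := by
  have h := eis3_isBoundedAtImInfty_slash N ψ 1
  rwa [SlashAction.slash_one] at h

theorem analyticAt_cuspFunction_eis3 : AnalyticAt ℂ (cuspFunction 1 (eis3 N ψ)) 0 :=
  analyticAt_cuspFunction_zero one_pos (periodic_eis3 N ψ) (eis3_mdifferentiable N ψ)
    (eis3_isBoundedAtImInfty N ψ)

theorem qExpansion_eis3_coeff (hN : 1 < N) (hodd : ψ (-1) = -1) (m : ℕ) :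
    (qExpansion 1 (eis3 N ψ)).coeff m = sigmaChi (chiOf N ψ) 2 m :=
  (UpperHalfPlane.qExpansion_coeff_unique
    (ContinuousMap.mk (eis3 N ψ) (eis3_mdifferentiable N ψ).continuous) one_pos
    (analyticAt_cuspFunction_eis3 N ψ) (hasSum_eis3 N ψ hN hodd) m).symm

theorem qExpansion_eis3 (hN : 1 < N) (hodd : ψ (-1) = -1) :
    qExpansion 1 (eis3 N ψ) = eisSeries N ψ := by
  ext m
  rw [qExpansion_eis3_coeff N ψ hN hodd m, eisSeries, PowerSeries.coeff_mk]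
  rfl

/-- **A-Eis.** -/
theorem stmt_Eis : Stmt_Eis := by
  intro N _ hN ψ hodd
  exact ⟨eis3 N ψ, eis3_mdifferentiable N ψ, eis3_isBoundedAtImInfty_slash N ψ,
    eis3_hasNeb N ψ, qExpansion_eis3 N ψ (by omega) hodd⟩

end Fermat.Agent.S48.Int.H01
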