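import Fermat.Agent.S48.Int.H55_IntAlg
import Fermat.Agent.S48.Int.H55_IntCoeff
import Fermat.Agent.S23.H22_Nice

/-!
# S48, leaf A: claims (i), (ii) from the sub-leaves (helper55)
-/

set_option autoImplicit false

open CongruenceSubgroup UpperHalfPlane ModularForm
open scoped MatrixGroups ModularForm Manifold

namespace Fermat.Agent.S48.Int.H55

open Fermat.Agent.S23.H22 (Nice nice_of_modularForm)

/-- Cusp forms on `Γ₁(N)` are nice. -/
theorem nice_G1 {N : ℕ} {k : ℤ} (f : CuspForm (Gamma1 N) k) : Nice 1 (f : ℍ → ℂ) :=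
  nice_of_modularForm f one_pos (by simp)

/-- Slash by `-1` in weight one. -/
theorem slash_neg_one_weight_one (g : ℍ → ℂ) : g ∣[(1 : ℤ)] (-1 : SL(2, ℤ)) = -g := by
  ext z
  rw [SL_slash_apply]
  have h1 : (-1 : SL(2, ℤ)) • z = z := by
    have := ModularGroup.SL_neg_smul (1 : SL(2, ℤ)) z
    rw [this, one_smul]
  rw [h1, ModularGroup.denom_apply]
  simp

/-- A function of weight one with an even character vanishes. -/
theorem eq_zero_of_hasNeb_of_ne {N : ℕ} {χ : DirichletCharacter ℂ N} {g : ℍ → ℂ}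
    (hg : HasNeb N χ 1 g) (hχ : χ (-1) ≠ -1) : g = 0 := by
  have hmem : (-1 : SL(2, ℤ)) ∈ Gamma0 N := by
    rw [Gamma0_mem]
    simp
  have h := hg (-1) hmem
  rw [slash_neg_one_weight_one] at h
  have hval : (((-1 : SL(2, ℤ)) 1 1 : ℤ) : ZMod N) = -1 := by simp
  rw [hval] at h
  ext z
  have hz := congrFun h z
  simp only [Pi.neg_apply, Pi.smul_apply, smul_eq_mul, Pi.zero_apply] at hz ⊢
  have h3 : (χ (-1) + 1) * g z = 0 := by
    rw [add_mul, one_mul, ← hz]; ring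
  rcases mul_eq_zero.1 h3 with h4 | h4
  · exact absurd (eq_neg_of_add_eq_zero_left h4) hχ
  · exact h4

end Fermat.Agent.S48.Int.H55

namespace Fermat.Agent.S48.Int.H55

open Fermat.Agent.S23.H22 (Nice nice_of_modularForm)

/-- `Λ * charRing N` is stable under multiplication by character values. -/
theorem charVal_mul_mem {N : ℕ} (M : Submodule ℤ ℂ) (χ : DirichletCharacter ℂ N) (a : ZMod N)
    (x : ℂ) (hx : x ∈ M * (charRing N).toSubmodule) :
    χ a * x ∈ M * (charRing N).toSubmodule := by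
  have h1 : x * χ a ∈ (M * (charRing N).toSubmodule) * (charRing N).toSubmodule :=
    Submodule.mul_mem_mul hx (charVal_mem χ a)
  rw [mul_assoc, (Subalgebra.isIdempotentElem_toSubmodule (charRing N)).eq] at h1
  rw [mul_comm (χ a) x]
  exact h1

/-- The coefficients of a nebentypus component lie in a finitely generated subgroup. -/
theorem exists_fg_coeff_neb (hEis : Stmt_Eis) (hProd : Stmt_Prod) (hFG : Stmt_CoeffFG)
    (N : ℕ) [NeZero N] (χ : DirichletCharacter ℂ N) (g : CuspForm (Gamma1 N) 1)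
    (hg : HasNeb N χ 1 g) :
    ∃ Λ : Submodule ℤ ℂ, Λ.FG ∧
      ∀ n, (qExpansion 1 g).coeff n ∈ Λ * (charRing N).toSubmodule := by
  by_cases hχ : χ (-1) = -1
  · -- odd character: `3 ≤ N`
    have hN : 3 ≤ N := by
      by_contra hlt
      have hN0 : N ≠ 0 := NeZero.ne N
      have h12 : N = 1 ∨ N = 2 := by omega
      have hneg : (-1 : ZMod N) = 1 := by
        rcases h12 with rfl | rfl
        · exact Subsingleton.elim _ _
        · decide
      rw [hneg, map_one] at hχ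
      norm_num at hχ
    have hψ : χ⁻¹ (-1) = -1 := by
      have hu : IsUnit (-1 : ZMod N) := isUnit_one.neg
      rw [MulChar.inv_apply_eq_inv' , hχ]
      norm_num
    obtain ⟨E, hEd, hEb, hEn, hEq⟩ := hEis N hN χ⁻¹ hψ
    obtain ⟨G, _, hGq⟩ := hProd N χ 1 3 g E hg hEd hEb hEn
    obtain ⟨Λ, hΛ, hΛc⟩ := hFG N G
    refine ⟨Λ, hΛ, fun n => ?_⟩
    refine coeff_mem_of_mul_eisSeries N χ⁻¹ (qExpansion 1 g) Λ (fun m => ?_) n
    rw [← hEq, ← hGq]
    exact hΛc m
  · have h0 : (g : ℍ → ℂ) = 0 := eq_zero_of_hasNeb_of_ne hg hχ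
    refine ⟨⊥, Submodule.fg_bot, fun n => ?_⟩
    have hq : qExpansion 1 (g : ℍ → ℂ) = 0 := by
      have h1 := Nice.qExpansion_smul (h := 1) one_pos (nice_G1 g) (0 : ℂ)
      rw [h0] at h1 ⊢
      simpa using h1
    rw [hq]
    simp

/-- The coefficients of a cusp form on `Γ₁(N)` lie in a finitely generated subgroup of `ℂ` which is
stable under multiplication by character values. -/
theorem exists_fg_coeff (hDec : Stmt_Decomp) (hEis : Stmt_Eis) (hProd : Stmt_Prod)
    (hFG : Stmt_CoeffFG) (N : ℕ) [NeZero N] (f : CuspForm (Gamma1 N) 1) :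
    ∃ Λ : Submodule ℤ ℂ, Λ.FG ∧ (∀ n, (qExpansion 1 f).coeff n ∈ Λ) ∧
      ∀ (χ : DirichletCharacter ℂ N) (a : ZMod N), ∀ x ∈ Λ, χ a * x ∈ Λ := by
  classical
  obtain ⟨F, hF, hsum⟩ := hDec N f
  choose L hL hLc using fun χ => exists_fg_coeff_neb hEis hProd hFG N χ (F χ) (hF χ)
  refine ⟨(⨆ χ, L χ) * (charRing N).toSubmodule, ?_, ?_, ?_⟩
  · exact (Submodule.fg_iSup L hL).mul (charRing_fg N)
  · intro n
    have hfun : (f : ℍ → ℂ) = ∑ χ, (F χ : ℍ → ℂ) := by
      ext z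
      rw [hsum z, Finset.sum_apply]
    have hq : qExpansion 1 (f : ℍ → ℂ) = ∑ χ, qExpansion 1 (F χ : ℍ → ℂ) := by
      rw [hfun]
      exact Nice.qExpansion_sum one_pos Finset.univ fun χ _ => nice_G1 (F χ)
    rw [hq, map_sum]
    refine Submodule.sum_mem _ fun χ _ => ?_
    exact (mul_le_mul' (le_iSup L χ) le_rfl) (hLc χ n)
  · intro χ a x hx
    exact charVal_mul_mem _ χ a x hx

/-- **A-I12**: claims (i), (ii) of `Stmt_Int` from the sub-leaves. -/
theorem stmt_Int12_of (hDec : Stmt_Decomp) (hEis : Stmt_Eis) (hProd : Stmt_Prod)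
    (hFG : Stmt_CoeffFG) : Stmt_Int12 := by
  intro N _ ε f hf
  obtain ⟨Λ, hΛ, hc, hst⟩ := exists_fg_coeff hDec hEis hProd hFG N f
  set P : Set ℕ := {p | p.Prime ∧ ¬ p ∣ N} with hP
  have hrel : ∀ p ∈ P, ∀ n : ℕ,
      ModularFormClass.qCoeff f (p * n) + ε (p : ZMod N) *
          (if p ∣ n then ModularFormClass.qCoeff f (n / p) else 0) =
        ModularFormClass.qCoeff f p * ModularFormClass.qCoeff f n :=
    fun p hp n => hf.hecke p hp.1 hp.2 n
  have hset : {x : ℂ | ∃ p : ℕ, p.Prime ∧ ¬ p ∣ N ∧ x = ModularFormClass.qCoeff f p} =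
      {x : ℂ | ∃ p ∈ P, x = (fun n => ModularFormClass.qCoeff f n) p} := by
    ext x
    constructor
    · rintro ⟨p, h1, h2, h3⟩
      exact ⟨p, ⟨h1, h2⟩, h3⟩
    · rintro ⟨p, ⟨h1, h2⟩, h3⟩
      exact ⟨p, h1, h2, h3⟩
  refine ⟨fun p hp hpN => ?_, ?_⟩
  · exact isIntegral_of_rel Λ hΛ (fun n => ModularFormClass.qCoeff f n)
      (fun p => ε (p : ZMod N)) P hf.one hc (fun p _ x hx => hst ε _ x hx) hrel p ⟨hp, hpN⟩
  · rw [hset]
    exact finiteDimensional_of_rel Λ hΛ (fun n => ModularFormClass.qCoeff f n)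
      (fun p => ε (p : ZMod N)) P hf.one hc (fun p _ x hx => hst ε _ x hx) hrel

end Fermat.Agent.S48.Int.H55
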