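import Fermat.Agent.S48.Int.H55_Int3
import Fermat.Agent.S48.Int.H01_CoeffFG
import Fermat.Agent.S48.Int.H01_Eis
import Fermat.Agent.S48.Int.H31_Decomp

/-!
# S48, leaf A: `Stmt_Int` (assembly; helper55 with helper1, helper22, helper31)
-/

set_option autoImplicit false

namespace Fermat.Agent.S48.Int.H55

/-- **Leaf A of S48**: integrality of the `a_p`, finiteness of the coefficient field, conjugate
forms. -/
theorem stmt_Int : Stmt_Int :=
  stmt_Int_of
    (stmt_Int12_of Fermat.Agent.S48.Int.H31.stmt_Decomp Fermat.Agent.S48.Int.H01.stmt_Eis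
      Fermat.Agent.S48.Int.H22.stmt_Prod Fermat.Agent.S48.Int.H01.stmt_CoeffFG)
    (stmt_Int3_of Fermat.Agent.S48.Int.H31.stmt_Decomp
      (stmt_NebGS_of Fermat.Agent.S48.Int.H01.stmt_Eis Fermat.Agent.S48.Int.H22.stmt_Prod
        Fermat.Agent.S48.Int.H22.stmt_Pow))

end Fermat.Agent.S48.Int.H55
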