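import Fermat.Agent.S48.Int.H55_NebGS

/-!
# S48, leaf A: claim (iii) (helper55): conjugates of cusp forms of weight one on `Γ₁(N)`
-/

set_option autoImplicit false

open CongruenceSubgroup UpperHalfPlane ModularForm
open scoped MatrixGroups ModularForm Manifold

namespace Fermat.Agent.S48.Int.H55

open Fermat.Agent.S23.H22 (Nice nice_of_modularForm)

theorem qExpansion_zero_fun : qExpansion 1 (0 : ℍ → ℂ) = 0 := by
  have h1 := Nice.qExpansion_smul (h := 1) one_pos (Nice.zero 1) (0 : ℂ)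
  simpa using h1

/-- **A-I3** from the sub-leaves. -/
theorem stmt_Int3_of (hDec : Stmt_Decomp) (hGS : Stmt_NebGS) : Stmt_Int3 := by
  classical
  intro N _ f σ
  obtain ⟨F, hF, hsum⟩ := hDec N f
  have hex : ∀ χ : DirichletCharacter ℂ N, ∃ g : CuspForm (Gamma1 N) 1,
      qExpansion 1 (g : ℍ → ℂ) = (qExpansion 1 (F χ : ℍ → ℂ)).map σ := by
    intro χ
    by_cases hχ : χ (-1) = -1
    · have hN : 3 ≤ N := by
        by_contra hlt
        have hN0 : N ≠ 0 := NeZero.ne N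
        have h12 : N = 1 ∨ N = 2 := by omega
        have hneg : (-1 : ZMod N) = 1 := by
          rcases h12 with rfl | rfl
          · exact Subsingleton.elim _ _
          · decide
        rw [hneg, map_one] at hχ
        norm_num at hχ
      exact hGS N hN χ (F χ) (hF χ) σ
    · have h0 : (F χ : ℍ → ℂ) = 0 := eq_zero_of_hasNeb_of_ne (hF χ) hχ
      refine ⟨0, ?_⟩
      have hq0 : qExpansion 1 ((0 : CuspForm (Gamma1 N) 1) : ℍ → ℂ) = 0 := qExpansion_zero_fun
      rw [h0, hq0, qExpansion_zero_fun, map_zero]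
  choose g hg using hex
  refine ⟨∑ χ, g χ, fun n => ?_⟩
  have hcoe : ((∑ χ, g χ : CuspForm (Gamma1 N) 1) : ℍ → ℂ) = ∑ χ, (g χ : ℍ → ℂ) := by
    ext z
    rw [Finset.sum_apply]
    exact map_sum (⟨⟨fun G : CuspForm (Gamma1 N) 1 => G z, rfl⟩, fun _ _ => rfl⟩ :
      CuspForm (Gamma1 N) 1 →+ ℂ) g Finset.univ
  have hfun : (f : ℍ → ℂ) = ∑ χ, (F χ : ℍ → ℂ) := by
    ext z
    rw [hsum z, Finset.sum_apply]
  have hq : qExpansion 1 (f : ℍ → ℂ) = ∑ χ, qExpansion 1 (F χ : ℍ → ℂ) := by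
    rw [hfun]
    exact Nice.qExpansion_sum one_pos Finset.univ fun χ _ => nice_G1 (F χ)
  have hq' : qExpansion 1 ((∑ χ, g χ : CuspForm (Gamma1 N) 1) : ℍ → ℂ) =
      ∑ χ, qExpansion 1 (g χ : ℍ → ℂ) := by
    rw [hcoe]
    exact Nice.qExpansion_sum one_pos Finset.univ fun χ _ => nice_G1 (g χ)
  unfold ModularFormClass.qCoeff
  rw [hq', hq, map_sum, map_sum, map_sum]
  refine Finset.sum_congr rfl fun χ _ => ?_
  rw [hg χ, PowerSeries.coeff_map]

end Fermat.Agent.S48.Int.H55
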