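import Mathlib

/-!
# S48, leaf A: the algebraic core of (i), (ii) (helper55)

If all `a n` lie in a finitely generated subgroup `Λ` of `ℂ` which is stable under multiplication by
the `e p`, `a 1 = 1`, and `a (p n) + e p · [p ∣ n] a (n / p) = a p · a n` for all `p ∈ P`, then every
`a p` (`p ∈ P`) is an algebraic integer and the field generated by the `a p` is a number field.
-/

set_option autoImplicit false

namespace Fermat.Agent.S48.Int.H55

/-- All monomials in the `a p` lie in `Λ`. -/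
theorem closure_le_of_rel (Λ : Submodule ℤ ℂ) (a e : ℕ → ℂ) (P : Set ℕ)
    (h1 : a 1 = 1) (ha : ∀ n, a n ∈ Λ) (he : ∀ p ∈ P, ∀ x ∈ Λ, e p * x ∈ Λ)
    (hrel : ∀ p ∈ P, ∀ n : ℕ,
      a (p * n) + e p * (if p ∣ n then a (n / p) else 0) = a p * a n) :
    ∀ x ∈ Submonoid.closure {x : ℂ | ∃ p ∈ P, x = a p}, x ∈ Λ := by
  have key : ∀ x ∈ Submonoid.closure {x : ℂ | ∃ p ∈ P, x = a p},
      ∀ y : ℂ, (∀ n, y * a n ∈ Λ) → ∀ n, x * y * a n ∈ Λ := by
    intro x hx
    induction hx using Submonoid.closure_induction with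
    | mem x hx =>
      obtain ⟨p, hp, rfl⟩ := hx
      intro y hy n
      have h : a p * y * a n = y * a (p * n) +
          e p * (y * (if p ∣ n then a (n / p) else 0)) := by
        rw [mul_comm (a p) y, mul_assoc, ← hrel p hp n]
        ring
      rw [h]
      refine Λ.add_mem (hy _) (he p hp _ ?_)
      split_ifs
      · exact hy _
      · rw [mul_zero]; exact Λ.zero_mem
    | one => intro y hy n; simpa using hy n
    | mul x y _ _ hx hy =>
      intro z hz n
      have h2 := hx (y * z) (fun m => hy z hz m) n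
      rwa [← mul_assoc] at h2
  intro x hx
  have := key x hx 1 (fun n => by simpa using ha n) 1
  rwa [h1, mul_one, mul_one] at this

/-- **Algebraic core**, integrality. -/
theorem isIntegral_of_rel (Λ : Submodule ℤ ℂ) (hΛ : Λ.FG) (a e : ℕ → ℂ) (P : Set ℕ)
    (h1 : a 1 = 1) (ha : ∀ n, a n ∈ Λ) (he : ∀ p ∈ P, ∀ x ∈ Λ, e p * x ∈ Λ)
    (hrel : ∀ p ∈ P, ∀ n : ℕ,
      a (p * n) + e p * (if p ∣ n then a (n / p) else 0) = a p * a n)
    (p : ℕ) (hp : p ∈ P) : IsIntegral ℤ (a p) := by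
  set T : Set ℂ := {x : ℂ | ∃ p ∈ P, x = a p} with hT
  have hle : (Algebra.adjoin ℤ T).toSubmodule ≤ Λ := by
    rw [Algebra.adjoin_eq_span, Submodule.span_le]
    exact fun x hx => closure_le_of_rel Λ a e P h1 ha he hrel x hx
  have hfg : (Algebra.adjoin ℤ T).toSubmodule.FG := hΛ.of_le hle
  exact IsIntegral.of_mem_of_fg (Algebra.adjoin ℤ T) hfg (a p)
    (Algebra.subset_adjoin ⟨p, hp, rfl⟩)

/-- **Algebraic core**, finiteness. -/
theorem finiteDimensional_of_rel (Λ : Submodule ℤ ℂ) (hΛ : Λ.FG) (a e : ℕ → ℂ) (P : Set ℕ)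
    (h1 : a 1 = 1) (ha : ∀ n, a n ∈ Λ) (he : ∀ p ∈ P, ∀ x ∈ Λ, e p * x ∈ Λ)
    (hrel : ∀ p ∈ P, ∀ n : ℕ,
      a (p * n) + e p * (if p ∣ n then a (n / p) else 0) = a p * a n) :
    FiniteDimensional ℚ (IntermediateField.adjoin ℚ {x : ℂ | ∃ p ∈ P, x = a p}) := by
  set T : Set ℂ := {x : ℂ | ∃ p ∈ P, x = a p} with hT
  have halg : ∀ x ∈ T, IsAlgebraic ℚ x := by
    rintro x ⟨p, hp, rfl⟩
    have hint := isIntegral_of_rel Λ hΛ a e P h1 ha he hrel p hp
    exact (IsFractionRing.isAlgebraic_iff ℤ ℚ ℂ).1 hint.isAlgebraic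
  have heq : (IntermediateField.adjoin ℚ T).toSubalgebra = Algebra.adjoin ℚ T :=
    IntermediateField.adjoin_toSubalgebra_of_isAlgebraic halg
  -- the `ℚ`-span of `Λ`
  obtain ⟨s, hs⟩ := hΛ
  have hle : (Algebra.adjoin ℚ T).toSubmodule ≤ Submodule.span ℚ (s : Set ℂ) := by
    rw [Algebra.adjoin_eq_span, Submodule.span_le]
    intro x hx
    have hxΛ : x ∈ Λ := closure_le_of_rel Λ a e P h1 ha he hrel x hx
    rw [← hs] at hxΛ
    have : Submodule.span ℤ (s : Set ℂ) ≤ (Submodule.span ℚ (s : Set ℂ)).restrictScalars ℤ :=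
      Submodule.span_le_restrictScalars ℤ ℚ _
    exact this hxΛ
  have hfin : FiniteDimensional ℚ (Submodule.span ℚ (s : Set ℂ)) :=
    FiniteDimensional.span_finset ℚ s
  have hfin2 : FiniteDimensional ℚ (Algebra.adjoin ℚ T).toSubmodule :=
    Submodule.finiteDimensional_of_le hle
  have hfin3 : FiniteDimensional ℚ ((IntermediateField.adjoin ℚ T).toSubalgebra) := by
    rw [heq]; exact hfin2
  exact hfin3

end Fermat.Agent.S48.Int.H55
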